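import Mathlib
import Fermat.Prelude.Def_FLTPrelim_FreyPackage
import Fermat.Prelude.Def_FLTPrelim_Modularity
import Fermat.Prelude.Def_FLTPrelim_ModularRep

set_option autoImplicit false

/-!
# The integral Frey model: exactness of the divisions, discriminant, semistability
-/

namespace FermatAgent.Wiring

open FreyPackage

variable (P : FreyPackage)

theorem frey_pow_b_dvd : (32 : ℤ) ∣ P.b ^ P.p := by
  have hb : (2 : ℤ) ∣ P.b := (ZMod.intCast_zmod_eq_zero_iff_dvd P.b 2).1 P.hb2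
  exact (pow_dvd_pow_of_dvd hb 5).trans (pow_dvd_pow _ P.hp5)

theorem frey_pow_a_mod_four : (4 : ℤ) ∣ P.a ^ P.p + 1 := by
  refine (ZMod.intCast_zmod_eq_zero_iff_dvd _ 4).1 ?_
  push_cast
  rw [P.ha4, show (3 : ZMod 4) = -1 from rfl, P.hp_odd.neg_one_pow, neg_add_cancel]

theorem freyCurveInt_four_mul_a₂ :
    4 * (freyCurveInt P).a₂ = P.b ^ P.p - 1 - P.a ^ P.p := by
  refine Int.mul_ediv_cancel' ?_
  have h1 := frey_pow_b_dvd P
  have h2 := frey_pow_a_mod_four P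
  omega

theorem freyCurveInt_sixteen_mul_a₄ :
    16 * (freyCurveInt P).a₄ = -(P.a ^ P.p) * P.b ^ P.p :=
  Int.mul_ediv_cancel' (Dvd.dvd.mul_left ((show (16 : ℤ) ∣ 32 by norm_num).trans
    (frey_pow_b_dvd P)) _)

theorem map_freyCurveInt : (freyCurveInt P).map (Int.castRingHom ℚ) = P.freyCurve := by
  have h2 : (4 : ℚ) * ((freyCurveInt P).a₂ : ℚ) = (P.b : ℚ) ^ P.p - 1 - (P.a : ℚ) ^ P.p := by
    exact_mod_cast freyCurveInt_four_mul_a₂ P
  have h4 : (16 : ℚ) * ((freyCurveInt P).a₄ : ℚ) = -((P.a : ℚ) ^ P.p) * (P.b : ℚ) ^ P.p := by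
    exact_mod_cast freyCurveInt_sixteen_mul_a₄ P
  ext
  · simp [freyCurveInt, freyCurve]
  · simp only [WeierstrassCurve.map_a₂, eq_intCast, freyCurve]
    rw [eq_div_iff (by norm_num : (4 : ℚ) ≠ 0), mul_comm, h2]
  · simp [freyCurveInt, freyCurve]
  · simp only [WeierstrassCurve.map_a₄, eq_intCast, freyCurve]
    rw [eq_div_iff (by norm_num : (16 : ℚ) ≠ 0), mul_comm, h4]
  · simp [freyCurveInt, freyCurve]

theorem freyCurveInt_isIntegralModelOf : (freyCurveInt P).IsIntegralModelOf P.freyCurve :=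
  ⟨1, by rw [one_smul, map_freyCurveInt]⟩

theorem freyCurveInt_Δ_eq :
    256 * (freyCurveInt P).Δ = ((P.a * P.b * P.c) ^ P.p) ^ 2 := by
  have h2 := freyCurveInt_four_mul_a₂ P
  have h4 := freyCurveInt_sixteen_mul_a₄ P
  have hc := P.hFLT
  simp only [WeierstrassCurve.Δ, WeierstrassCurve.b₂, WeierstrassCurve.b₄, WeierstrassCurve.b₆,
    WeierstrassCurve.b₈]
  rw [show (freyCurveInt P).a₁ = 1 from rfl, show (freyCurveInt P).a₃ = 0 from rfl,
    show (freyCurveInt P).a₆ = 0 from rfl]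
  rw [show ((P.a * P.b * P.c) ^ P.p) ^ 2 = (P.a ^ P.p * P.b ^ P.p * P.c ^ P.p) ^ 2 by
      rw [mul_pow (P.a * P.b), mul_pow P.a], ← hc]
  generalize (freyCurveInt P).a₂ = u at *
  generalize (freyCurveInt P).a₄ = v at *
  generalize P.a ^ P.p = A at *
  generalize P.b ^ P.p = B at *
  obtain rfl : B = 4 * u + 1 + A := by linarith
  linear_combination (16 * v - A * (4 * u + 1 + A)) * (4 * u + 1) ^ 2 * h4
    - 4 * ((16 * v) ^ 2 - 16 * v * (A * (4 * u + 1 + A)) + (A * (4 * u + 1 + A)) ^ 2) * h4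

theorem freyCurveInt_c₄_eq :
    (freyCurveInt P).c₄ =
      (P.a ^ P.p) ^ 2 + P.a ^ P.p * P.b ^ P.p + (P.b ^ P.p) ^ 2 := by
  have h2 := freyCurveInt_four_mul_a₂ P
  have h4 := freyCurveInt_sixteen_mul_a₄ P
  simp only [WeierstrassCurve.c₄, WeierstrassCurve.b₂, WeierstrassCurve.b₄]
  rw [show (freyCurveInt P).a₁ = 1 from rfl, show (freyCurveInt P).a₃ = 0 from rfl]
  linear_combination (4 * (freyCurveInt P).a₂ + 1 + P.b ^ P.p - P.a ^ P.p) * h2 - 3 * h4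

theorem freyCurveInt_Δ_ne_zero : (freyCurveInt P).Δ ≠ 0 := by
  intro h
  have := freyCurveInt_Δ_eq P
  rw [h, mul_zero] at this
  exact pow_ne_zero 2 (pow_ne_zero P.p P.habc0) this.symm

theorem dvd_abc_of_dvd_freyCurveInt_Δ {q : ℕ} (hq : q.Prime)
    (h : (q : ℤ) ∣ (freyCurveInt P).Δ) : (q : ℤ) ∣ P.a * P.b * P.c := by
  have hq' : Prime (q : ℤ) := Nat.prime_iff_prime_int.mp hq
  have h2 : (q : ℤ) ∣ ((P.a * P.b * P.c) ^ P.p) ^ 2 := freyCurveInt_Δ_eq P ▸ h.mul_left _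
  exact hq'.dvd_of_dvd_pow (hq'.dvd_of_dvd_pow h2)

theorem freyCurveInt_isSemistableModel : (freyCurveInt P).IsSemistableModel := by
  intro q hq hΔ hc
  have hq' : Prime (q : ℤ) := Nat.prime_iff_prime_int.mp hq
  rw [freyCurveInt_c₄_eq] at hc
  have key : ∀ x y : ℤ, (q : ℤ) ∣ x → (q : ℤ) ∣ y → gcd x y = 1 → False := fun x y hx hy hg =>
    hq'.not_isUnit (isUnit_of_dvd_one (hg ▸ dvd_gcd hx hy))
  have hp := P.hp0
  rcases hq'.dvd_or_dvd (dvd_abc_of_dvd_freyCurveInt_Δ P hq hΔ) with hab | hc'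
  · rcases hq'.dvd_or_dvd hab with ha | hb
    · have hA := dvd_pow ha hp
      have : (q : ℤ) ∣ (P.b ^ P.p) ^ 2 :=
        (dvd_add_right (dvd_add (dvd_pow hA two_ne_zero) (hA.mul_right _))).mp hc
      exact key _ _ ha (hq'.dvd_of_dvd_pow (hq'.dvd_of_dvd_pow this)) P.hgcdab
    · have hB := dvd_pow hb hp
      rw [add_assoc] at hc
      have : (q : ℤ) ∣ (P.a ^ P.p) ^ 2 :=
        (dvd_add_left (dvd_add (hB.mul_left _) (dvd_pow hB two_ne_zero))).mp hc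
      exact key _ _ (hq'.dvd_of_dvd_pow (hq'.dvd_of_dvd_pow this)) hb P.hgcdab
  · have hC : (q : ℤ) ∣ P.a ^ P.p + P.b ^ P.p := by rw [P.hFLT]; exact dvd_pow hc' hp
    have : (q : ℤ) ∣ (P.a ^ P.p) ^ 2 := by
      have h' : (P.a ^ P.p) ^ 2 = (P.a ^ P.p) ^ 2 + P.a ^ P.p * P.b ^ P.p + (P.b ^ P.p) ^ 2
          - (P.a ^ P.p + P.b ^ P.p) * P.b ^ P.p := by ring
      rw [h']
      exact dvd_sub hc (hC.mul_right _)
    exact key _ _ (hq'.dvd_of_dvd_pow (hq'.dvd_of_dvd_pow this)) hc' P.hgcdac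

end FermatAgent.Wiring
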