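import Fermat.Agent.Wiring.Top
import Fermat.Prelude.Def_FormalHecke_Eigensystem
import Fermat.Prelude.Def_CuspForm_IntegralLattice
import Fermat.Prelude.Def_ModularForm_EisensteinChiNegThree

set_option autoImplicit false

/-!
# Modularity wiring: the shapes of the residual input and output
-/

open WeierstrassCurve WeierstrassCurve.Affine WeierstrassCurve.Affine.Point
open CuspForm ModularFormClass
open scoped WeierstrassCurve.Affine

namespace FermatAgent.Wiring

/-- The residual input that S59 consumes at `p`. -/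
def ResidualInput (W : WeierstrassCurve ℤ) (p : ℕ) : Prop :=
  ∃ M : ℕ, 0 < M ∧ ¬ p ^ 2 ∣ M ∧ (∀ q : ℕ, q.Prime → q ≠ p → ¬ q ^ 3 ∣ M) ∧
    W.IsResiduallyModularOfLevel p M

/-- The residual output in the shape of S50. -/
def ResidualOutputThree (W : WeierstrassCurve ℤ) : Prop :=
  ∃ M : ℕ, 0 < M ∧ W.IsResiduallyModularOfLevel 3 M ∧
    (∀ q : ℕ, q.Prime → q ≠ 3 → ¬ q ^ 3 ∣ M) ∧
    (3 ^ 2 ∣ M →
      ∀ A : ValuationSubring (AlgebraicClosure ℚ), A.LiesOverPrime 3 →
        ∀ x : Submodule.torsionBy ℤ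
            ((W.map (Int.castRingHom ℚ))⁄(AlgebraicClosure ℚ)).Point (3 : ℕ),
          (∀ σ ∈ A.inertiaSubgroupIn ℚ, σ • x = x) → x = 0)

/-- S06 from the same inputs. -/
theorem freyModularRep_of_exactConductor
    (h : ∀ W : WeierstrassCurve ℤ, W.Δ ≠ 0 → W.IsSemistableModel →
      Mlc1IsModularModelOfExactConductorLevel W)
    (P : FreyPackage) : ∃ N : ℕ, P.IsConductorLevel N ∧ P.ModularRepOfLevel N :=
  modularRep_of_exactConductor P
    (h _ (freyCurveInt_Δ_ne_zero P) (freyCurveInt_isSemistableModel P))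

end FermatAgent.Wiring
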