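import Fermat.Agent.S02
import Fermat.Agent.Wiring.Frey
import Fermat.Prelude.Def_FLTPrelim_Ramification
import Fermat.Prelude.Def_FLTPrelim_CofixedLine
import Fermat.Prelude.Def_FreyPackage_IsConductorLevel
import Fermat.Prelude.Def_WeierstrassCurve_Mlc1RowStatement

set_option autoImplicit false

/-!
# Top wiring: the endgame from the frozen statements, taken as explicit hypotheses
-/

open WeierstrassCurve WeierstrassCurve.Affine WeierstrassCurve.Affine.Point
open CuspForm ModularFormClass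

namespace FermatAgent.Wiring

/-- S01 from S03. -/
theorem fermat_of_noFrey (hS03 : FreyPackage → False) (n : ℕ) (hn : 3 ≤ n) (a b c : ℕ)
    (ha : 0 < a) (hb : 0 < b) (hc : 0 < c) : a ^ n + b ^ n ≠ c ^ n := by
  have h : FermatLastTheorem := FermatLastTheorem.of_odd_primes fun p hp hodd => by
    rcases Nat.lt_or_ge p 5 with hlt | hge
    · have h2 := hp.two_le
      interval_cases p
      · exact absurd hodd (by decide)
      · exact fermatLastTheoremThree
      · exact absurd hodd (by decide)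
    · refine fermatLastTheoremFor_iff_int.mpr fun x y z hx hy hz hxyz => ?_
      obtain ⟨P⟩ := Fermat.Agent.S02.result x y z hx hy hz p hp hge hxyz
      exact hS03 P
  exact h n hn a b c ha.ne' hb.ne' hc.ne'

/-- S09 from S10, S11, S12 and S13. -/
theorem irreducible_of_cofixed
    (hS10 : ∀ P : FreyPackage, P.p = 5 ∨ P.p = 7 ∨ P.p = 13 →
      ¬ HasGaloisStableCofixedLine (K := AlgebraicClosure ℚ) ℚ P.freyCurve P.p)
    (hS11 : ∀ P : FreyPackage, P.p = 11 →
      ¬ HasGaloisStableCofixedLine (K := AlgebraicClosure ℚ) ℚ P.freyCurve P.p)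
    (hS12 : ∀ P : FreyPackage, 17 ≤ P.p →
      ¬ HasGaloisStableCofixedLine (K := AlgebraicClosure ℚ) ℚ P.freyCurve P.p)
    (hS13 : ∀ P : FreyPackage,
      ¬ GaloisRepIsIrreducible (K := AlgebraicClosure ℚ) ℚ P.freyCurve P.p →
      HasGaloisStableCofixedLine (K := AlgebraicClosure ℚ) ℚ P.freyCurve P.p)
    (P : FreyPackage) :
    GaloisRepIsIrreducible (K := AlgebraicClosure ℚ) ℚ P.freyCurve P.p := by
  by_contra hred
  have hline := hS13 P hred
  have h5 := P.hp5
  have hpp := P.pp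
  rcases Nat.lt_or_ge P.p 17 with h17 | h17
  · obtain h | h | h | h : P.p = 5 ∨ P.p = 7 ∨ P.p = 11 ∨ P.p = 13 := by
      generalize P.p = p at *
      interval_cases p <;> first | omega | exact absurd hpp (by decide)
    · exact hS10 P (Or.inl h) hline
    · exact hS10 P (Or.inr (Or.inl h)) hline
    · exact hS11 P h hline
    · exact hS10 P (Or.inr (Or.inr h)) hline
  · exact hS12 P h17 hline

/-- Level lowering endgame: strip every prime other than `2` from a conductor level. -/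
theorem exists_level_dvd_two
    (hS43 : ∀ (P : FreyPackage) {N q : ℕ}, P.IsConductorLevel N → q.Prime → q ≠ 2 → q ≠ P.p →
      q ∣ N → GaloisRepIsIrreducible (K := AlgebraicClosure ℚ) ℚ P.freyCurve P.p →
      P.ModularRepOfLevel N → P.GaloisRepUnramifiedAt q →
      ∃ M : ℕ, M ∣ N ∧ ¬ q ∣ M ∧ P.ModularRepOfLevel M)
    (hS44 : ∀ (P : FreyPackage) {N : ℕ}, P.IsConductorLevel N → P.p ∣ N →
      GaloisRepIsIrreducible (K := AlgebraicClosure ℚ) ℚ P.freyCurve P.p → P.ModularRepOfLevel N →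
      ∃ M : ℕ, M ∣ N ∧ ¬ P.p ∣ M ∧ P.ModularRepOfLevel M)
    (hS05 : ∀ (P : FreyPackage) {q : ℕ}, q.Prime → q ≠ 2 → q ≠ P.p → P.GaloisRepUnramifiedAt q)
    (P : FreyPackage)
    (hirr : GaloisRepIsIrreducible (K := AlgebraicClosure ℚ) ℚ P.freyCurve P.p) :
    ∀ N : ℕ, P.IsConductorLevel N → P.ModularRepOfLevel N →
      ∃ M : ℕ, M ∣ 2 ∧ P.ModularRepOfLevel M := by
  intro N
  induction N using Nat.strong_induction_on with
  | _ N ih =>
  intro hcond hmod
  by_cases hex : ∃ q : ℕ, q.Prime ∧ q ≠ 2 ∧ q ∣ N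
  · obtain ⟨q, hq, hq2, hqN⟩ := hex
    obtain ⟨M, hMN, hqM, hM⟩ : ∃ M : ℕ, M ∣ N ∧ ¬ q ∣ M ∧ P.ModularRepOfLevel M := by
      rcases eq_or_ne q P.p with rfl | hqp
      · exact hS44 P hcond hqN hirr hmod
      · exact hS43 P hcond hq hq2 hqp hqN hirr hmod (hS05 P hq hq2 hqp)
    have hM0 : 0 < M := Nat.pos_of_dvd_of_pos hMN hcond.pos
    have hlt : M < N :=
      lt_of_le_of_ne (Nat.le_of_dvd hcond.pos hMN) fun h => hqM (h ▸ hqN)
    exact ih M hlt (hcond.of_dvd hMN hM0) hM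
  · refine ⟨N, ?_, hmod⟩
    rw [← Nat.prod_primeFactors_of_squarefree hcond.squarefree]
    refine (Finset.prod_dvd_prod_of_subset _ {2} _ fun q hq => ?_).trans (by simp)
    rw [Finset.mem_singleton]
    obtain ⟨hq, hqN, -⟩ := Nat.mem_primeFactors.mp hq
    by_contra h
    exact hex ⟨q, hq, h, hqN⟩

/-- S45 from S05, S06, S08, S43, S44 (the modularity hypothesis of S45 is not needed then). -/
theorem exists_levelTwoForm
    (hS05 : ∀ (P : FreyPackage) {q : ℕ}, q.Prime → q ≠ 2 → q ≠ P.p → P.GaloisRepUnramifiedAt q)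
    (hS06 : ∀ P : FreyPackage, ∃ N : ℕ, P.IsConductorLevel N ∧ P.ModularRepOfLevel N)
    (hS08 : ∀ f : CuspForm (CongruenceSubgroup.Gamma0 1) 2, f = 0)
    (hS43 : ∀ (P : FreyPackage) {N q : ℕ}, P.IsConductorLevel N → q.Prime → q ≠ 2 → q ≠ P.p →
      q ∣ N → GaloisRepIsIrreducible (K := AlgebraicClosure ℚ) ℚ P.freyCurve P.p →
      P.ModularRepOfLevel N → P.GaloisRepUnramifiedAt q →
      ∃ M : ℕ, M ∣ N ∧ ¬ q ∣ M ∧ P.ModularRepOfLevel M)
    (hS44 : ∀ (P : FreyPackage) {N : ℕ}, P.IsConductorLevel N → P.p ∣ N →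
      GaloisRepIsIrreducible (K := AlgebraicClosure ℚ) ℚ P.freyCurve P.p → P.ModularRepOfLevel N →
      ∃ M : ℕ, M ∣ N ∧ ¬ P.p ∣ M ∧ P.ModularRepOfLevel M)
    (P : FreyPackage)
    (hirr : GaloisRepIsIrreducible (K := AlgebraicClosure ℚ) ℚ P.freyCurve P.p) :
    ∃ f : CuspForm (CongruenceSubgroup.Gamma0 2) 2, f ≠ 0 := by
  obtain ⟨N, hcond, hmod⟩ := hS06 P
  obtain ⟨M, hM, f, W, 𝔪, hf, -⟩ :=
    exists_level_dvd_two hS43 hS44 hS05 P hirr N hcond hmod
  rcases (Nat.dvd_prime Nat.prime_two).mp hM with rfl | rfl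
  · exact absurd (hS08 f) hf.ne_zero
  · exact ⟨f, hf.ne_zero⟩

/-- S03 from S04, S07, S09 and S45. -/
theorem noFrey_of_wiring
    (hS04 : ∀ P : FreyPackage, P.freyCurve.IsModular)
    (hS07 : ∀ f : CuspForm (CongruenceSubgroup.Gamma0 2) 2, f = 0)
    (hS09 : ∀ P : FreyPackage,
      GaloisRepIsIrreducible (K := AlgebraicClosure ℚ) ℚ P.freyCurve P.p)
    (hS45 : ∀ P : FreyPackage, P.freyCurve.IsModular →
      GaloisRepIsIrreducible (K := AlgebraicClosure ℚ) ℚ P.freyCurve P.p →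
      ∃ f : CuspForm (CongruenceSubgroup.Gamma0 2) 2, f ≠ 0)
    (P : FreyPackage) : False := by
  obtain ⟨f, hf⟩ := hS45 P (hS04 P) (hS09 P)
  exact hf (hS07 f)

/-- S06 for one package from exact-conductor modularity of its integral model. -/
theorem modularRep_of_exactConductor (P : FreyPackage)
    (h : Mlc1IsModularModelOfExactConductorLevel (FreyPackage.freyCurveInt P)) :
    ∃ N : ℕ, P.IsConductorLevel N ∧ P.ModularRepOfLevel N := by
  obtain ⟨N, hN, hsq, hsupp, f, hf, hfp⟩ := h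
  obtain ⟨𝔪, hmax, hmem⟩ := FLTPrelim.exists_maximalIdeal_natCast_prime_mem P.pp
  refine ⟨N, ⟨hN, hsq, fun q hq hqN =>
    dvd_abc_of_dvd_freyCurveInt_Δ P hq ((hsupp q hq).mp hqN)⟩, f, FreyPackage.freyCurveInt P, 𝔪,
    hf, freyCurveInt_isIntegralModelOf P, hmax, hmem, fun ℓ hℓ hgood hℓN _ => ?_⟩
  refine ⟨((FreyPackage.freyCurveInt P).apOfModel ℓ : integralClosure ℤ ℂ), ?_, ?_⟩
  · rw [hfp ℓ hℓ hgood hℓN, SubringClass.coe_intCast]
  · rw [sub_self]
    exact zero_mem _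

/-- Modularity over `ℚ` from exact-conductor modularity of an integral model. -/
theorem isModular_map_of_exactConductor {W : WeierstrassCurve ℤ}
    (h : Mlc1IsModularModelOfExactConductorLevel W) :
    (W.map (Int.castRingHom ℚ)).IsModular := by
  obtain ⟨N, hN, -, -, hmod⟩ := h
  exact ⟨W, ⟨1, one_smul _ _⟩, N, hN, hmod⟩

/-- S04 from S60. -/
theorem freyModular_of_modularityTheorem
    (hS60 : ∀ W : WeierstrassCurve ℤ, W.Δ ≠ 0 → W.IsSemistableModel →
      (W.map (Int.castRingHom ℚ)).IsModular)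
    (P : FreyPackage) : P.freyCurve.IsModular :=
  map_freyCurveInt P ▸ hS60 _ (freyCurveInt_Δ_ne_zero P) (freyCurveInt_isSemistableModel P)

end FermatAgent.Wiring
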